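import Mathlib

/-!
# S16, WP ALG: abstract commutative algebra

`A` a commutative ring, `I` an ideal such that every element of `A` is congruent to an integer
modulo `I`.

* `card_quotient_eq_of` : `Nat.card (A ⧸ I) = n` from a lower and an upper bound on the integers
  contained in `I`.
* `exists_linear_lift`  : a `ℤ`-linear form `A → ℤ` lifting `A → A ⧸ I → ℤ/m`.
-/

set_option autoImplicit false

namespace Fermat.Agent.S16.H7

section Cong

variable {A : Type*} [CommRing A] (I : Ideal A)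

theorem cong_mul {s t : A} {a b : ℤ} (hs : s - (a : A) ∈ I) (ht : t - (b : A) ∈ I) :
    s * t - ((a * b : ℤ) : A) ∈ I := by
  have h : s * t - ((a * b : ℤ) : A) = (s - (a : A)) * t + (a : A) * (t - (b : A)) := by
    push_cast
    ring
  rw [h]
  exact I.add_mem (I.mul_mem_right _ hs) (I.mul_mem_left _ ht)

theorem cong_sub {s t : A} {a b : ℤ} (hs : s - (a : A) ∈ I) (ht : t - (b : A) ∈ I) :
    (s - t) - ((a - b : ℤ) : A) ∈ I := by
  have h : (s - t) - ((a - b : ℤ) : A) = (s - (a : A)) - (t - (b : A)) := by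
    push_cast
    ring
  rw [h]
  exact I.sub_mem hs ht

theorem cong_add {s t : A} {a b : ℤ} (hs : s - (a : A) ∈ I) (ht : t - (b : A) ∈ I) :
    (s + t) - ((a + b : ℤ) : A) ∈ I := by
  have h : (s + t) - ((a + b : ℤ) : A) = (s - (a : A)) + (t - (b : A)) := by
    push_cast
    ring
  rw [h]
  exact I.add_mem hs ht

theorem cong_zsmul (c : ℤ) {t : A} {b : ℤ} (ht : t - (b : A) ∈ I) :
    c • t - ((c * b : ℤ) : A) ∈ I := by
  have h : c • t - ((c * b : ℤ) : A) = (c : A) * (t - (b : A)) := by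
    rw [zsmul_eq_mul]
    push_cast
    ring
  rw [h]
  exact I.mul_mem_left _ ht

theorem cong_one : (1 : A) - ((1 : ℤ) : A) ∈ I := by
  simp

theorem cong_intCast (a : ℤ) : (a : A) - ((a : ℤ) : A) ∈ I := by
  simp

theorem cong_congr {t : A} {a b : ℤ} (h : a = b) (ht : t - (a : A) ∈ I) : t - (b : A) ∈ I :=
  h ▸ ht

end Cong

section Card

variable {A : Type*} [CommRing A] (I : Ideal A)

theorem card_quotient_eq_of (n : ℕ) (hn : 0 < n)
    (hsurj : ∀ t : A, ∃ a : ℤ, t - (a : A) ∈ I)
    (hLB : ∀ a : ℤ, (a : A) ∈ I → (n : ℤ) ∣ a)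
    (hUB : ∀ m : ℕ, 0 < m → (∀ a : ℤ, (a : A) ∈ I → (m : ℤ) ∣ a) → m ∣ n) :
    Nat.card (A ⧸ I) = n := by
  set c : ℕ := ringChar (A ⧸ I) with hc
  have : CharP (A ⧸ I) c := ringChar.charP _
  have hcast : ∀ a : ℤ, ((a : ℤ) : A ⧸ I) = 0 ↔ (a : A) ∈ I := by
    intro a
    rw [← Ideal.Quotient.eq_zero_iff_mem, map_intCast]
  have hchar : ∀ a : ℤ, (a : A) ∈ I ↔ (c : ℤ) ∣ a := by
    intro a
    rw [← hcast, CharP.intCast_eq_zero_iff (A ⧸ I) c]
  -- the cast `ZMod c → A ⧸ I` is bijective
  have hinj : Function.Injective (ZMod.castHom (dvd_refl c) (A ⧸ I)) :=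
    ZMod.castHom_injective (A ⧸ I)
  have hsur : Function.Surjective (ZMod.castHom (dvd_refl c) (A ⧸ I)) := by
    intro x
    obtain ⟨t, rfl⟩ := Ideal.Quotient.mk_surjective x
    obtain ⟨a, ha⟩ := hsurj t
    refine ⟨(a : ZMod c), ?_⟩
    rw [map_intCast]
    have := (Ideal.Quotient.eq_zero_iff_mem).mpr ha
    rw [map_sub, sub_eq_zero, map_intCast] at this
    exact this.symm
  have hcard : Nat.card (A ⧸ I) = c := by
    rw [← Nat.card_congr (Equiv.ofBijective _ ⟨hinj, hsur⟩), Nat.card_zmod]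
  rw [hcard]
  -- `n ∣ c`
  have h1 : n ∣ c := by
    have : (n : ℤ) ∣ (c : ℤ) := hLB c ((hchar c).mpr dvd_rfl)
    exact_mod_cast this
  -- `c ∣ n`
  have h2 : c ∣ n := by
    rcases Nat.eq_zero_or_pos c with h0 | h0
    · exfalso
      have h3 : n + 1 ∣ n := by
        refine hUB (n + 1) (Nat.succ_pos n) fun a ha => ?_
        have := (hchar a).mp ha
        rw [h0] at this
        have ha0 : a = 0 := by simpa using this
        rw [ha0]
        exact dvd_zero _
      have := Nat.le_of_dvd hn h3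
      omega
    · exact hUB c h0 fun a ha => (hchar a).mp ha
  exact Nat.dvd_antisymm h2 h1

end Card

section Lift

variable {A : Type*} [CommRing A] [Module.Free ℤ A] (I : Ideal A)

theorem exists_linear_lift (hsurj : ∀ t : A, ∃ a : ℤ, t - (a : A) ∈ I) (m : ℤ)
    (hm : ∀ a : ℤ, (a : A) ∈ I → m ∣ a) :
    ∃ lam : A →ₗ[ℤ] ℤ, ∀ (t : A) (a : ℤ), t - (a : A) ∈ I → m ∣ lam t - a := by
  classical
  set b := Module.Free.chooseBasis ℤ A with hb
  choose val hval using hsurj
  set lam : A →ₗ[ℤ] ℤ := b.constr ℤ (fun i => val (b i)) with hlam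
  refine ⟨lam, fun t a hta => ?_⟩
  -- `t - lam t ∈ I`
  have key : ∀ s : A, s - ((lam s : ℤ) : A) ∈ I := by
    let K : Submodule ℤ A :=
      { carrier := {s | s - ((lam s : ℤ) : A) ∈ I}
        zero_mem' := by simp
        add_mem' := by
          intro x y hx hy
          have := cong_add I hx hy
          rwa [← map_add] at this
        smul_mem' := by
          intro c x hx
          have := cong_zsmul I c hx
          have h2 : c * lam x = lam (c • x) := by rw [map_smul]; rfl
          rwa [h2] at this }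
    have hK : (⊤ : Submodule ℤ A) ≤ K := by
      rw [← b.span_eq, Submodule.span_le]
      rintro _ ⟨i, rfl⟩
      show b i - ((lam (b i) : ℤ) : A) ∈ I
      have h1 : lam (b i) = val (b i) := by
        rw [hlam, Module.Basis.constr_basis]
      rw [h1]
      exact hval (b i)
    intro s
    exact hK (Submodule.mem_top : s ∈ (⊤ : Submodule ℤ A))
  have h3 : ((lam t - a : ℤ) : A) ∈ I := by
    have h4 : ((lam t - a : ℤ) : A) = (t - (a : A)) - (t - ((lam t : ℤ) : A)) := by
      push_cast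
      ring
    rw [h4]
    exact I.sub_mem hta (key t)
  exact hm _ h3

end Lift

end Fermat.Agent.S16.H7
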