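import Fermat.Agent.S16.Defs

/-!
# S16, WP ALG: Hecke relations for `σ'(k) = ∑_{d ∣ k, p ∤ d} d`

* `sigmaP_one`       : `σ'(1) = 1`
* `sigmaP_mul_self`  : `σ'(k p) = σ'(k)`
* `sigmaP_mul_prime` : `σ'(k ℓ) + [ℓ ∣ k] ℓ σ'(k/ℓ) = (1 + ℓ) σ'(k)` for a prime `ℓ ≠ p`, `k ≠ 0`.
-/

set_option autoImplicit false

namespace Fermat.Agent.S16.H7

open ArithmeticFunction Finset
open scoped ArithmeticFunction.zeta

/-- `d ↦ d` if `p ∤ d`, and `0` otherwise. -/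
def gP (p : ℕ) : ArithmeticFunction ℕ := ⟨fun d => if p ∣ d then 0 else d, by simp⟩

theorem gP_apply (p d : ℕ) : gP p d = if p ∣ d then 0 else d := rfl

theorem gP_isMultiplicative {p : ℕ} (hp : p.Prime) : (gP p).IsMultiplicative := by
  refine ⟨?_, ?_⟩
  · rw [gP_apply, if_neg]
    rw [Nat.dvd_one]
    exact hp.ne_one
  · intro m n _
    simp only [gP_apply, hp.dvd_mul]
    by_cases h1 : p ∣ m <;> by_cases h2 : p ∣ n <;> simp [h1, h2]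

/-- `σ'` as an arithmetic function. -/
def FP (p : ℕ) : ArithmeticFunction ℕ := gP p * ζ

theorem sigmaP_eq_FP (p k : ℕ) : sigmaP p k = FP p k := by
  rw [FP, mul_zeta_apply, sigmaP, Finset.sum_filter]
  refine Finset.sum_congr rfl fun d _ => ?_
  rw [gP_apply]
  by_cases h : p ∣ d <;> simp [h]

theorem FP_isMultiplicative {p : ℕ} (hp : p.Prime) : (FP p).IsMultiplicative :=
  (gP_isMultiplicative hp).mul isMultiplicative_zeta

theorem FP_prime_pow {p : ℕ} (hp : p.Prime) {ℓ : ℕ} (hℓ : ℓ.Prime) (hne : ℓ ≠ p) (a : ℕ) :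
    FP p (ℓ ^ a) = ∑ i ∈ Finset.range (a + 1), ℓ ^ i := by
  rw [FP, mul_zeta_apply, Nat.divisors_prime_pow hℓ, Finset.sum_map]
  refine Finset.sum_congr rfl fun i _ => ?_
  simp only [Function.Embedding.coeFn_mk, gP_apply]
  rw [if_neg]
  intro h
  have := (Nat.prime_dvd_prime_iff_eq hp hℓ).mp (hp.dvd_of_dvd_pow h)
  exact hne this.symm

theorem sigmaP_one {p : ℕ} (hp : p.Prime) : sigmaP p 1 = 1 := by
  rw [sigmaP_eq_FP]
  exact (FP_isMultiplicative hp).1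

theorem sigmaP_mul_self {p : ℕ} (hp : p.Prime) (k : ℕ) : sigmaP p (k * p) = sigmaP p k := by
  unfold sigmaP
  have hset : (k * p).divisors.filter (fun d => ¬ p ∣ d) = k.divisors.filter (fun d => ¬ p ∣ d) := by
    ext d
    simp only [Finset.mem_filter, Nat.mem_divisors]
    constructor
    · rintro ⟨⟨hd, hne⟩, hpd⟩
      refine ⟨⟨?_, fun h0 => hne (by rw [h0, zero_mul])⟩, hpd⟩
      have hcop : Nat.Coprime d p := ((Nat.Prime.coprime_iff_not_dvd hp).mpr hpd).symm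
      exact hcop.dvd_of_dvd_mul_right hd
    · rintro ⟨⟨hd, hne⟩, hpd⟩
      exact ⟨⟨Dvd.dvd.mul_right hd p, Nat.mul_ne_zero hne hp.ne_zero⟩, hpd⟩
  rw [hset]

theorem geom_rec (ℓ a : ℕ) :
    (∑ i ∈ Finset.range (a + 1 + 1), ℓ ^ i) = 1 + ℓ * ∑ i ∈ Finset.range (a + 1), ℓ ^ i := by
  rw [Finset.sum_range_succ', Finset.mul_sum]
  simp only [pow_succ, pow_zero]
  rw [add_comm]
  congr 1
  refine Finset.sum_congr rfl fun i _ => ?_
  ring

theorem sigmaP_mul_prime {p : ℕ} (hp : p.Prime) {ℓ : ℕ} (hℓ : ℓ.Prime) (hne : ℓ ≠ p)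
    (k : ℕ) (hk : k ≠ 0) :
    sigmaP p (k * ℓ) + (if ℓ ∣ k then ℓ * sigmaP p (k / ℓ) else 0) = (1 + ℓ) * sigmaP p k := by
  obtain ⟨a, m, hm, rfl⟩ := Nat.exists_eq_pow_mul_and_not_dvd hk ℓ hℓ.ne_one
  have hcop : ∀ b : ℕ, Nat.Coprime (ℓ ^ b) m := fun b =>
    Nat.Coprime.pow_left b ((Nat.Prime.coprime_iff_not_dvd hℓ).mpr hm)
  have hF : ∀ b : ℕ, sigmaP p (ℓ ^ b * m) = (∑ i ∈ Finset.range (b + 1), ℓ ^ i) * sigmaP p m := by
    intro b
    rw [sigmaP_eq_FP, (FP_isMultiplicative hp).map_mul_of_coprime (hcop b),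
      FP_prime_pow hp hℓ hne, ← sigmaP_eq_FP]
  have h1 : ℓ ^ a * m * ℓ = ℓ ^ (a + 1) * m := by ring
  rw [h1, hF (a + 1), hF a]
  rcases Nat.eq_zero_or_pos a with rfl | ha
  · have hnd : ¬ ℓ ∣ ℓ ^ 0 * m := by simpa using hm
    rw [if_neg hnd]
    simp [Finset.sum_range_succ]
  · obtain ⟨b, rfl⟩ : ∃ b, a = b + 1 := ⟨a - 1, by omega⟩
    have hd : ℓ ∣ ℓ ^ (b + 1) * m := Dvd.dvd.mul_right (dvd_pow_self ℓ (by omega)) m
    have hdiv : ℓ ^ (b + 1) * m / ℓ = ℓ ^ b * m := by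
      rw [pow_succ, mul_assoc, mul_comm ℓ m, ← mul_assoc]
      exact Nat.mul_div_cancel _ hℓ.pos
    rw [if_pos hd, hdiv, hF b, geom_rec ℓ (b + 1), geom_rec ℓ b]
    ring

end Fermat.Agent.S16.H7
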