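import Fermat.Prelude.Def_HeckeGalois_EichlerShimura
import Fermat.Agent.S16.H7.Sigma
import Fermat.Agent.S16.H7.AbsAlg

/-!
# S16, WP ALG: the Hecke algebra argument in an abstract setting

`L` is a lattice of "`q`-expansions" (with integral coefficient functionals `coeff n`), and `A` is a
commutative ring acting faithfully on `L`, generated by operators `T_ℓ` (`ℓ ≠ p`), `U_p` acting on
coefficients by the usual formulas.  `I ⊆ A` is the image of the Eisenstein ideal.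

* `exists_hecke`  : `t_k ∈ A` with `a₁(t_k f) = a_k(f)` and `t_k ≡ σ'(k) mod I`.
* `exists_dual`   : every `ℤ`-linear form on `A` is `t ↦ a₁(t f)` for some `f ∈ L`.
* `lower`         : (LB') `⇒` integers in `I` are divisible by `n`.
* `upper`         : (UB') `⇒` if all integers in `I` are divisible by `m`, then `m ∣ n`.
* `card_quotient` : `Nat.card (A ⧸ I) = n`.
-/

set_option autoImplicit false

noncomputable section

namespace Fermat.Agent.S16.H7

open ModularCurve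

/-- Abstract Hecke setup at prime level `p`. -/
structure HeckeSetup (p : ℕ) (L : Type) [AddCommGroup L] (A : Type) [CommRing A] where
  /-- the `n`-th coefficient -/
  coeff : ℕ → (L →ₗ[ℤ] ℤ)
  /-- the action of `A` on `L` -/
  ρ : A →+* Module.End ℤ L
  /-- the generators -/
  φ : HeckeAlg →+* A
  ρ_inj : Function.Injective ρ
  φ_surj : Function.Surjective φ
  coeff_T : ∀ ℓ : Nat.Primes, ¬ (ℓ : ℕ) ∣ p → ∀ (f : L) (n : ℕ),
    coeff n (ρ (φ (MvPolynomial.X ℓ)) f) =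
      coeff (n * ℓ) f + if (ℓ : ℕ) ∣ n then ((ℓ : ℕ) : ℤ) * coeff (n / ℓ) f else 0
  coeff_U : ∀ ℓ : Nat.Primes, (ℓ : ℕ) ∣ p → ∀ (f : L) (n : ℕ),
    coeff n (ρ (φ (MvPolynomial.X ℓ)) f) = coeff (n * ℓ) f
  ext : ∀ f : L, (∀ n : ℕ, 1 ≤ n → coeff n f = 0) → f = 0
  sat : ∀ d : ℤ, d ≠ 0 → ∀ g : L, (∀ n : ℕ, 1 ≤ n → d ∣ coeff n g) → ∃ g' : L, d • g' = g

namespace HeckeSetup

variable {p : ℕ} {L : Type} [AddCommGroup L] {A : Type} [CommRing A] (S : HeckeSetup p L A)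

/-- The image of the Eisenstein ideal. -/
def I : Ideal A := Ideal.map S.φ (eisensteinIdeal p)

/-- Evaluation at the Eisenstein system. -/
def ev (p : ℕ) : HeckeAlg →ₐ[ℤ] ℤ := MvPolynomial.aeval (eisensteinSystem p)

theorem mem_eisensteinIdeal_iff (Q : HeckeAlg) : Q ∈ eisensteinIdeal p ↔ ev p Q = 0 :=
  mem_eigenIdeal_iff _ _

theorem ev_X_of_dvd (ℓ : Nat.Primes) (h : (ℓ : ℕ) ∣ p) : ev p (MvPolynomial.X ℓ) = 1 := by
  rw [ev, MvPolynomial.aeval_X, eisensteinSystem_of_dvd h]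

theorem ev_X_of_not_dvd (ℓ : Nat.Primes) (h : ¬ (ℓ : ℕ) ∣ p) :
    ev p (MvPolynomial.X ℓ) = 1 + ((ℓ : ℕ) : ℤ) := by
  rw [ev, MvPolynomial.aeval_X, eisensteinSystem_of_not_dvd h]

theorem ev_C (a : ℤ) : ev p (MvPolynomial.C a) = a := by
  rw [ev, MvPolynomial.aeval_C]
  rfl

theorem φ_C (a : ℤ) : S.φ (MvPolynomial.C a) = (a : A) := by
  rw [eq_intCast (MvPolynomial.C : ℤ →+* HeckeAlg) a, map_intCast]

/-- `φ(Q) ≡ ev(Q) mod I`. -/
theorem cong_φ (Q : HeckeAlg) : S.φ Q - ((ev p Q : ℤ) : A) ∈ S.I := by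
  have hmem : Q - MvPolynomial.C (ev p Q) ∈ eisensteinIdeal p := by
    rw [mem_eisensteinIdeal_iff, map_sub, ev_C, sub_self]
  have h1 : S.φ (Q - MvPolynomial.C (ev p Q)) ∈ S.I := Ideal.mem_map_of_mem _ hmem
  rwa [map_sub, φ_C] at h1

/-- Every element of `A` is congruent to an integer modulo `I`. -/
theorem exists_cong (t : A) : ∃ a : ℤ, t - ((a : ℤ) : A) ∈ S.I := by
  obtain ⟨Q, rfl⟩ := S.φ_surj t
  exact ⟨ev p Q, S.cong_φ Q⟩

/-- Elements of `I` are images of elements of the Eisenstein ideal. -/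
theorem exists_of_mem_I {t : A} (ht : t ∈ S.I) : ∃ Q : HeckeAlg, ev p Q = 0 ∧ S.φ Q = t := by
  obtain ⟨Q, hQ, rfl⟩ := (Ideal.mem_map_iff_of_surjective S.φ S.φ_surj).mp ht
  exact ⟨Q, (mem_eisensteinIdeal_iff Q).mp hQ, rfl⟩

/-! ## The action -/

theorem ρ_mul (s t : A) (f : L) : S.ρ (s * t) f = S.ρ s (S.ρ t f) := by
  rw [map_mul]
  rfl

theorem ρ_one (f : L) : S.ρ 1 f = f := by
  rw [map_one]
  rfl

theorem ρ_sub (s t : A) (f : L) : S.ρ (s - t) f = S.ρ s f - S.ρ t f := by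
  rw [map_sub]
  rfl

theorem ρ_add (s t : A) (f : L) : S.ρ (s + t) f = S.ρ s f + S.ρ t f := by
  rw [map_add]
  rfl

theorem ρ_zsmul (c : ℤ) (t : A) (f : L) : S.ρ (c • t) f = c • S.ρ t f := by
  rw [map_zsmul]
  rfl

theorem ρ_intCast (c : ℤ) (f : L) : S.ρ (c : A) f = c • f := by
  have h : (c : A) = c • (1 : A) := by simp
  rw [h, ρ_zsmul, ρ_one]

theorem ρ_comm (s t : A) (f : L) : S.ρ s (S.ρ t f) = S.ρ t (S.ρ s f) := by
  rw [← ρ_mul, ← ρ_mul, mul_comm]

/-! ## Hecke operators `t_k` -/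

theorem exists_hecke (hp : p.Prime) (k : ℕ) (hk : 1 ≤ k) :
    ∃ t : A, (∀ f : L, S.coeff 1 (S.ρ t f) = S.coeff k f) ∧
      t - (((sigmaP p k : ℕ) : ℤ) : A) ∈ S.I := by
  induction k using Nat.strong_induction_on with
  | _ k ih =>
    rcases Nat.lt_or_ge k 2 with hk2 | hk2
    · obtain rfl : k = 1 := by omega
      refine ⟨1, fun f => by rw [ρ_one], ?_⟩
      rw [sigmaP_one hp]
      exact cong_one _
    · have hk1 : k ≠ 1 := by omega
      have hℓ : (k.minFac).Prime := Nat.minFac_prime hk1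
      set ℓ : Nat.Primes := ⟨k.minFac, hℓ⟩ with hℓdef
      obtain ⟨m, hm⟩ : ∃ m, k = m * (ℓ : ℕ) := by
        obtain ⟨m, hm⟩ := Nat.minFac_dvd k
        exact ⟨m, hm.trans (mul_comm _ _)⟩
      have hm1 : 1 ≤ m := by
        rcases Nat.eq_zero_or_pos m with h0 | h0
        · rw [h0, zero_mul] at hm
          omega
        · exact h0
      have hmk : m < k := by
        have h2 := hℓ.two_le
        have h3 : m * 2 ≤ m * (ℓ : ℕ) := Nat.mul_le_mul_left m h2
        omega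
      obtain ⟨tm, htm, htm'⟩ := ih m hmk hm1
      have h1 := cong_mul S.I htm' (S.cong_φ (MvPolynomial.X ℓ))
      by_cases hd : (ℓ : ℕ) ∣ p
      · -- `ℓ = p`
        have hℓp : (ℓ : ℕ) = p := (Nat.prime_dvd_prime_iff_eq hℓ hp).mp hd
        refine ⟨tm * S.φ (MvPolynomial.X ℓ), fun f => ?_, ?_⟩
        · rw [ρ_mul, htm, S.coeff_U ℓ hd, hm]
        · refine cong_congr _ ?_ h1
          rw [ev_X_of_dvd ℓ hd, hm, hℓp, sigmaP_mul_self hp, mul_one]
      · -- `ℓ ≠ p`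
        have hℓp : (ℓ : ℕ) ≠ p := fun h => hd (h ▸ dvd_rfl)
        have hev : ev p (MvPolynomial.X ℓ) = 1 + ((ℓ : ℕ) : ℤ) := ev_X_of_not_dvd ℓ hd
        have hsig := sigmaP_mul_prime hp hℓ hℓp m (by omega)
        by_cases hdm : (ℓ : ℕ) ∣ m
        · have hml : m / (ℓ : ℕ) < k :=
            lt_of_le_of_lt (Nat.div_le_self _ _) hmk
          have hml1 : 1 ≤ m / (ℓ : ℕ) :=
            Nat.div_pos (Nat.le_of_dvd (by omega) hdm) hℓ.pos
          obtain ⟨tq, htq, htq'⟩ := ih (m / (ℓ : ℕ)) hml hml1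
          refine ⟨tm * S.φ (MvPolynomial.X ℓ) - ((ℓ : ℕ) : ℤ) • tq, fun f => ?_, ?_⟩
          · rw [ρ_sub, map_sub, ρ_mul, htm, S.coeff_T ℓ hd, if_pos hdm,
              ρ_zsmul, map_smul, htq, hm, smul_eq_mul]
            ring
          · rw [if_pos hdm] at hsig
            have h2 := cong_sub S.I h1 (cong_zsmul S.I ((ℓ : ℕ) : ℤ) htq')
            refine cong_congr _ ?_ h2
            rw [hm, hev]
            have := congrArg (fun x : ℕ => (x : ℤ)) hsig
            push_cast at this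
            linarith
        · refine ⟨tm * S.φ (MvPolynomial.X ℓ), fun f => ?_, ?_⟩
          · rw [ρ_mul, htm, S.coeff_T ℓ hd, if_neg hdm, add_zero, hm]
          · rw [if_neg hdm, add_zero] at hsig
            refine cong_congr _ ?_ h1
            rw [hm, hsig, hev]
            push_cast
            ring

/-- Left nondegeneracy of the pairing `(t, f) ↦ a₁(t f)`. -/
theorem eq_zero_of_pairing_left (hp : p.Prime) (t : A)
    (h : ∀ f : L, S.coeff 1 (S.ρ t f) = 0) : t = 0 := by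
  apply S.ρ_inj
  rw [map_zero]
  refine LinearMap.ext fun f => ?_
  rw [LinearMap.zero_apply]
  refine S.ext _ fun k hk => ?_
  obtain ⟨tk, htk, -⟩ := S.exists_hecke hp k hk
  rw [← htk, ρ_comm]
  exact h _

end HeckeSetup

end Fermat.Agent.S16.H7
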