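import Mathlib

/-!
# S16, WP ALG: a left nondegenerate integral pairing is right surjective up to a denominator

`exists_int_solution`: if the integer matrix `c : ιA → ιL → ℤ` has trivial left kernel, then for
every `y : ιA → ℤ` there are `D ≠ 0` and `z : ιL → ℤ` with `∑_j c i j * z j = D * y i`.
-/

set_option autoImplicit false

namespace Fermat.Agent.S16.H7

open Finset

/-- Clearing denominators of a finite family of rational numbers. -/
theorem exists_clear_denom {ι : Type*} [Finite ι] (x : ι → ℚ) :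
    ∃ D : ℤ, D ≠ 0 ∧ ∃ z : ι → ℤ, ∀ j, (D : ℚ) * x j = (z j : ℚ) := by
  obtain ⟨b, hb⟩ := IsLocalization.exist_integer_multiples_of_finite (nonZeroDivisors ℤ) x
  refine ⟨(b : ℤ), nonZeroDivisors.coe_ne_zero b, ?_⟩
  choose z hz using hb
  refine ⟨z, fun j => ?_⟩
  have := hz j
  rw [Algebra.smul_def] at this
  simpa using this.symm

theorem exists_int_solution {ιA ιL : Type*} [Fintype ιA] [Fintype ιL] [DecidableEq ιA]
    [DecidableEq ιL] (c : ιA → ιL → ℤ)
    (hc : ∀ w : ιA → ℤ, (∀ j, ∑ i, w i * c i j = 0) → w = 0) (y : ιA → ℤ) :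
    ∃ D : ℤ, D ≠ 0 ∧ ∃ z : ιL → ℤ, ∀ i, ∑ j, c i j * z j = D * y i := by
  set M : Matrix ιA ιL ℚ := fun i j => (c i j : ℚ) with hM
  set B : (ιA → ℚ) →ₗ[ℚ] (ιL → ℚ) →ₗ[ℚ] ℚ := Matrix.toLinearMap₂' ℚ M with hB
  have hBapp : ∀ (v : ιA → ℚ) (x : ιL → ℚ), B v x = ∑ i, ∑ j, v i * x j * M i j := by
    intro v x
    rw [hB, Matrix.toLinearMap₂'_apply]
    refine Finset.sum_congr rfl fun i _ => Finset.sum_congr rfl fun j _ => ?_
    simp [mul_assoc]
  have hinj : Function.Injective B := by
    rw [injective_iff_map_eq_zero]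
    intro v hv
    obtain ⟨D, hD, w, hw⟩ := exists_clear_denom v
    have hw0 : w = 0 := by
      refine hc w fun j => ?_
      have h1 : B v (Pi.single j 1) = 0 := by rw [hv]; rfl
      rw [hBapp] at h1
      have h2 : (((∑ i, w i * c i j : ℤ)) : ℚ) = (D : ℚ) * ∑ i, ∑ j', v i * (Pi.single j 1 : ιL → ℚ) j' * M i j' := by
        push_cast
        rw [Finset.mul_sum]
        refine Finset.sum_congr rfl fun i _ => ?_
        rw [Finset.sum_eq_single j]
        · simp only [Pi.single_eq_same, mul_one, hM]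
          rw [← hw i]
          ring
        · intro j' _ hj'
          simp [Pi.single_eq_of_ne hj']
        · intro h
          exact absurd (Finset.mem_univ j) h
      rw [h1, mul_zero] at h2
      exact_mod_cast h2
    funext i
    have h3 := hw i
    rw [hw0] at h3
    have hDQ : (D : ℚ) ≠ 0 := by exact_mod_cast hD
    simpa [hDQ] using h3
  have hsurj : Function.Surjective B.flip := LinearMap.flip_surjective_iff₁.mpr hinj
  set μ : Module.Dual ℚ (ιA → ℚ) := ∑ i, (y i : ℚ) • LinearMap.proj i with hμ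
  obtain ⟨x, hx⟩ := hsurj μ
  obtain ⟨D, hD, z, hz⟩ := exists_clear_denom x
  refine ⟨D, hD, z, fun i => ?_⟩
  have h1 : B (Pi.single i 1) x = μ (Pi.single i 1) := by
    rw [← hx]
    rfl
  have h2 : μ (Pi.single i 1) = (y i : ℚ) := by
    rw [hμ, LinearMap.sum_apply, Finset.sum_eq_single i]
    · simp
    · intro i' _ hi'
      simp [Pi.single_eq_of_ne hi']
    · intro h
      exact absurd (Finset.mem_univ i) h
  have h3 : B (Pi.single i 1) x = ∑ j, M i j * x j := by
    rw [hBapp, Finset.sum_eq_single i]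
    · refine Finset.sum_congr rfl fun j _ => ?_
      simp only [Pi.single_eq_same]
      ring
    · intro i' _ hi'
      simp [Pi.single_eq_of_ne hi']
    · intro h
      exact absurd (Finset.mem_univ i) h
  have h4 : ((∑ j, c i j * z j : ℤ) : ℚ) = ((D * y i : ℤ) : ℚ) := by
    push_cast
    rw [← h2, ← h1, h3, Finset.mul_sum]
    refine Finset.sum_congr rfl fun j _ => ?_
    rw [← hz j]
    simp only [hM]
    ring
  exact_mod_cast h4

end Fermat.Agent.S16.H7
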