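import Fermat.Agent.S16.H7.Abs
import Fermat.Agent.S16.H7.LinAlg

/-!
# S16, WP ALG: duality, lower and upper bound, cardinality (abstract setting)
-/

set_option autoImplicit false

noncomputable section

namespace Fermat.Agent.S16.H7

open ModularCurve

namespace HeckeSetup

variable {p : ℕ} {L : Type} [AddCommGroup L] {A : Type} [CommRing A] (S : HeckeSetup p L A)

/-! ## Lower bound -/

/-- The Eisenstein congruence for the generators. -/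
theorem exists_gen_cong (hp : p.Prime) (n : ℕ) (hn : n ≠ 0) (c : ℤ) (h : L)
    (hh : ∀ k : ℕ, 1 ≤ k → (n : ℤ) ∣ S.coeff k h - c * ((sigmaP p k : ℕ) : ℤ))
    (ℓ : Nat.Primes) :
    ∃ g : L, S.ρ (S.φ (MvPolynomial.X ℓ)) h - (ev p (MvPolynomial.X ℓ)) • h = (n : ℤ) • g := by
  have hnZ : (n : ℤ) ≠ 0 := by exact_mod_cast hn
  suffices hdiv : ∀ k : ℕ, 1 ≤ k → (n : ℤ) ∣
      S.coeff k (S.ρ (S.φ (MvPolynomial.X ℓ)) h - (ev p (MvPolynomial.X ℓ)) • h) by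
    obtain ⟨g, hg⟩ := S.sat (n : ℤ) hnZ _ hdiv
    exact ⟨g, hg.symm⟩
  intro k hk
  · rw [map_sub, map_smul, smul_eq_mul]
    by_cases hd : (ℓ : ℕ) ∣ p
    · have hℓp : (ℓ : ℕ) = p := (Nat.prime_dvd_prime_iff_eq ℓ.2 hp).mp hd
      rw [S.coeff_U ℓ hd, ev_X_of_dvd ℓ hd, one_mul]
      obtain ⟨b₁, hb₁⟩ := hh (k * ℓ) (Nat.mul_pos hk ℓ.2.pos)
      obtain ⟨b₂, hb₂⟩ := hh k hk
      rw [hℓp, sigmaP_mul_self hp] at hb₁
      rw [hℓp]
      exact ⟨b₁ - b₂, by linear_combination hb₁ - hb₂⟩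
    · have hℓp : (ℓ : ℕ) ≠ p := fun h => hd (h ▸ dvd_rfl)
      have hsig := sigmaP_mul_prime hp ℓ.2 hℓp k (by omega)
      have hsigZ := congrArg (fun x : ℕ => (x : ℤ)) hsig
      rw [S.coeff_T ℓ hd, ev_X_of_not_dvd ℓ hd]
      obtain ⟨b₁, hb₁⟩ := hh (k * ℓ) (Nat.mul_pos hk ℓ.2.pos)
      obtain ⟨b₂, hb₂⟩ := hh k hk
      by_cases hdk : (ℓ : ℕ) ∣ k
      · have hkl1 : 1 ≤ k / (ℓ : ℕ) := Nat.div_pos (Nat.le_of_dvd (by omega) hdk) ℓ.2.pos
        obtain ⟨b₃, hb₃⟩ := hh (k / ℓ) hkl1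
        rw [if_pos hdk] at hsigZ ⊢
        push_cast at hsigZ
        exact ⟨b₁ + ((ℓ : ℕ) : ℤ) * b₃ - (1 + ((ℓ : ℕ) : ℤ)) * b₂, by
          linear_combination hb₁ + ((ℓ : ℕ) : ℤ) * hb₃ - (1 + ((ℓ : ℕ) : ℤ)) * hb₂ + c * hsigZ⟩
      · rw [if_neg hdk] at hsigZ ⊢
        push_cast at hsigZ
        exact ⟨b₁ - (1 + ((ℓ : ℕ) : ℤ)) * b₂, by
          linear_combination hb₁ - (1 + ((ℓ : ℕ) : ℤ)) * hb₂ + c * hsigZ⟩

/-- The Eisenstein congruence for all of `A`. -/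
theorem exists_cong_of_gen (n : ℕ) (h : L)
    (hgen : ∀ ℓ : Nat.Primes, ∃ g : L,
      S.ρ (S.φ (MvPolynomial.X ℓ)) h - (ev p (MvPolynomial.X ℓ)) • h = (n : ℤ) • g)
    (Q : HeckeAlg) : ∃ g : L, S.ρ (S.φ Q) h - (ev p Q) • h = (n : ℤ) • g := by
  induction Q using MvPolynomial.induction_on with
  | C a =>
    refine ⟨0, ?_⟩
    rw [φ_C, ρ_intCast, ev_C, sub_self, smul_zero]
  | add P Q hP hQ =>
    obtain ⟨g₁, hg₁⟩ := hP
    obtain ⟨g₂, hg₂⟩ := hQ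
    refine ⟨g₁ + g₂, ?_⟩
    rw [map_add, ρ_add, map_add, add_smul, smul_add, ← hg₁, ← hg₂]
    abel
  | mul_X Q ℓ hQ =>
    obtain ⟨g₁, hg₁⟩ := hQ
    obtain ⟨g₂, hg₂⟩ := hgen ℓ
    refine ⟨(ev p (MvPolynomial.X ℓ)) • g₁ + S.ρ (S.φ Q) g₂, ?_⟩
    have h1 : S.ρ (S.φ (MvPolynomial.X ℓ)) h = (ev p (MvPolynomial.X ℓ)) • h + (n : ℤ) • g₂ := by
      rw [← hg₂]
      abel
    have h2 : S.ρ (S.φ Q) h = (ev p Q) • h + (n : ℤ) • g₁ := by
      rw [← hg₁]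
      abel
    rw [map_mul, ρ_mul, h1, map_add, map_smul, map_smul, h2, map_mul, smul_add, smul_add,
      smul_smul, smul_smul, smul_smul, mul_comm (ev p (MvPolynomial.X ℓ)) (ev p Q),
      mul_comm (ev p (MvPolynomial.X ℓ)) (n : ℤ)]
    abel

theorem lower (hp : p.Prime) (n : ℕ) (hn : n ≠ 0) (c : ℤ) (hc : IsCoprime c (n : ℤ)) (h : L)
    (hh : ∀ k : ℕ, 1 ≤ k → (n : ℤ) ∣ S.coeff k h - c * ((sigmaP p k : ℕ) : ℤ))
    (a : ℤ) (ha : (a : A) ∈ S.I) : (n : ℤ) ∣ a := by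
  obtain ⟨Q, hQ0, hQ⟩ := S.exists_of_mem_I ha
  obtain ⟨g, hg⟩ := S.exists_cong_of_gen n h (S.exists_gen_cong hp n hn c h hh) Q
  rw [hQ, hQ0, zero_smul, sub_zero, ρ_intCast] at hg
  have h1 := congrArg (S.coeff 1) hg
  rw [map_smul, map_smul, smul_eq_mul, smul_eq_mul] at h1
  obtain ⟨b, hb⟩ := hh 1 le_rfl
  rw [sigmaP_one hp] at hb
  have h2 : (n : ℤ) ∣ a * c := by
    refine ⟨S.coeff 1 g - a * b, ?_⟩
    have hb' : S.coeff 1 h = c + (n : ℤ) * b := by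
      have : S.coeff 1 h - c * ((1 : ℕ) : ℤ) = (n : ℤ) * b := hb
      push_cast at this
      linarith
    rw [hb'] at h1
    linear_combination h1
  exact (hc.symm).dvd_of_dvd_mul_right h2

/-! ## Duality -/

section Dual

variable [Module.Free ℤ L] [Module.Finite ℤ L] [Module.Free ℤ A] [Module.Finite ℤ A]

/-- The pairing `(t, f) ↦ a₁(t f)`. -/
def pairing : A →ₗ[ℤ] L →ₗ[ℤ] ℤ :=
  LinearMap.mk₂ ℤ (fun t f => S.coeff 1 (S.ρ t f))
    (fun s t f => by rw [ρ_add, map_add])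
    (fun c t f => by rw [ρ_zsmul, map_smul])
    (fun t f g => by rw [map_add, map_add])
    (fun c t f => by rw [map_smul, map_smul])

omit [Module.Free ℤ L] [Module.Finite ℤ L] [Module.Free ℤ A] [Module.Finite ℤ A] in
theorem pairing_apply (t : A) (f : L) : S.pairing t f = S.coeff 1 (S.ρ t f) := rfl

theorem exists_dual (hp : p.Prime) (lam : A →ₗ[ℤ] ℤ) :
    ∃ f : L, ∀ t : A, S.coeff 1 (S.ρ t f) = lam t := by
  classical
  set bA := Module.Free.chooseBasis ℤ A with hbA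
  set bL := Module.Free.chooseBasis ℤ L with hbL
  set c : Module.Free.ChooseBasisIndex ℤ A → Module.Free.ChooseBasisIndex ℤ L → ℤ :=
    fun i j => S.pairing (bA i) (bL j) with hcdef
  have hc : ∀ w : Module.Free.ChooseBasisIndex ℤ A → ℤ, (∀ j, ∑ i, w i * c i j = 0) → w = 0 := by
    intro w hw
    have ht : ∑ i, w i • bA i = 0 := by
      refine S.eq_zero_of_pairing_left hp _ fun f => ?_
      rw [← pairing_apply]
      have h0 : S.pairing (∑ i, w i • bA i) = 0 := by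
        refine bL.ext fun j => ?_
        rw [map_sum, LinearMap.sum_apply, LinearMap.zero_apply, ← hw j]
        refine Finset.sum_congr rfl fun i _ => ?_
        rw [map_smul, LinearMap.smul_apply, smul_eq_mul]
      rw [h0, LinearMap.zero_apply]
    funext i
    exact Fintype.linearIndependent_iff.mp bA.linearIndependent w ht i
  obtain ⟨D, hD, z, hz⟩ := exists_int_solution c hc (fun i => lam (bA i))
  set g : L := ∑ j, z j • bL j with hg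
  have hflip : (S.pairing.flip g) = D • lam := by
    refine bA.ext fun i => ?_
    rw [LinearMap.flip_apply, LinearMap.smul_apply, smul_eq_mul, ← hz i, hg, map_sum]
    refine Finset.sum_congr rfl fun j _ => ?_
    rw [map_smul, smul_eq_mul, mul_comm]
  have hpair : ∀ t : A, S.coeff 1 (S.ρ t g) = D * lam t := by
    intro t
    have := LinearMap.congr_fun hflip t
    rwa [LinearMap.flip_apply, LinearMap.smul_apply, smul_eq_mul, pairing_apply] at this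
  obtain ⟨g', hg'⟩ := S.sat D hD g (fun k hk => by
    obtain ⟨tk, htk, -⟩ := S.exists_hecke hp k hk
    rw [← htk, hpair]
    exact dvd_mul_right _ _)
  refine ⟨g', fun t => ?_⟩
  have h1 := hpair t
  rw [← hg', map_smul, map_smul, smul_eq_mul] at h1
  exact mul_left_cancel₀ hD h1

/-! ## Upper bound -/

theorem upper (hp : p.Prime) (n : ℕ)
    (hUB : ∀ m : ℕ, 1 ≤ m → ∀ f : L,
      (∀ k : ℕ, 1 ≤ k → (m : ℤ) ∣ S.coeff k f - ((sigmaP p k : ℕ) : ℤ)) → m ∣ n)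
    (m : ℕ) (hm : 0 < m) (hI : ∀ a : ℤ, (a : A) ∈ S.I → (m : ℤ) ∣ a) : m ∣ n := by
  obtain ⟨lam, hlam⟩ := exists_linear_lift S.I S.exists_cong (m : ℤ) hI
  obtain ⟨f, hf⟩ := S.exists_dual hp lam
  refine hUB m hm f fun k hk => ?_
  obtain ⟨tk, htk, htk'⟩ := S.exists_hecke hp k hk
  rw [← htk, hf]
  exact hlam tk _ htk'

/-! ## Cardinality -/

theorem card_quotient (hp : p.Prime) (n : ℕ) (hn : 0 < n)
    (hLB : ∃ h : L, ∃ c : ℤ, IsCoprime c (n : ℤ) ∧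
      ∀ k : ℕ, 1 ≤ k → (n : ℤ) ∣ S.coeff k h - c * ((sigmaP p k : ℕ) : ℤ))
    (hUB : ∀ m : ℕ, 1 ≤ m → ∀ f : L,
      (∀ k : ℕ, 1 ≤ k → (m : ℤ) ∣ S.coeff k f - ((sigmaP p k : ℕ) : ℤ)) → m ∣ n) :
    Nat.card (A ⧸ S.I) = n := by
  obtain ⟨h, c, hc, hh⟩ := hLB
  exact card_quotient_eq_of S.I n hn S.exists_cong
    (fun a ha => S.lower hp n hn.ne' c hc h hh a ha)
    (fun m hm hI => S.upper hp n hUB m hm hI)

end Dual

end HeckeSetup

end Fermat.Agent.S16.H7
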