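import Fermat.Agent.S16.Defs
import Fermat.Agent.S20.Bridge
import Fermat.Prelude.Def_CuspForm_IntegralStructure
import Fermat.Prelude.Def_ModularCurve_ModularUnit
import Fermat.Prelude.Thm_CongruenceSubgroup_one_mem_strictPeriods_Gamma0

/-!
# S16, WP ALG, first half ("BRIDGE-1"): from forms to congruences in the integral lattice

Input: the four interface statements of the S16 skeleton, written out (no new definitions):

* (E)  `∃ e ∈ MF (Gamma0 p) 2, a₀(e) = (p-1)/24 ∧ ∀ k ≥ 1, a_k(e) = σ'(k)`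
* (C)  `∀ G ∈ MF (Gamma0 p) 2, a₀(G) = 0 → G ∈ SF (Gamma0 p) 2`
* (UB) `∀ G ∈ MF (Gamma0 p) 2, IntFrom1 G → ∃ m : ℤ, 24 a₀(G) = gcd(p-1,12) m`
* (LB) `∃ G ∈ MF (Gamma0 p) 2, a₀(G) = 1/2 ∧ IntFrom1 G`

Output (`n = eisensteinNumerator p = (p-1)/gcd(p-1,12)`, `c = 12/gcd(p-1,12)`):

* `ub_prime`  (UB'): a cusp form `f` with `a_k(f) ≡ σ'(k) mod m` for all `k ≥ 1` forces `m ∣ n`.
* `lb_prime`  (LB'): there is `h` in the integral lattice with `a_k(h) ≡ c σ'(k) mod n`, `k ≥ 1`.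
* `coprime_c_n` : `c` and `n` are coprime.
-/

set_option autoImplicit false

noncomputable section

namespace Fermat.Agent.S16.H7

open UpperHalfPlane ModularForm CongruenceSubgroup MatrixGroups ModularFormClass
open Fermat.Agent.S20 (MF SF)
open scoped Manifold

/-! ## `q`-coefficients on the function level spaces `MF (Gamma0 N) k` -/

theorem one_mem_strictPeriods (N : ℕ) :
    (1 : ℝ) ∈ ((Gamma0 N : Subgroup SL(2, ℤ)) : Subgroup (GL (Fin 2) ℝ)).strictPeriods :=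
  CongruenceSubgroup.one_mem_strictPeriods_Gamma0 N

theorem exists_modularForm_of_mem_MF {N : ℕ} [NeZero N] {k : ℤ} {f : ℍ → ℂ}
    (hf : f ∈ MF (Gamma0 N) k) : ∃ g : ModularForm (Gamma0 N) k, ⇑g = f :=
  (Fermat.Agent.S20.isMF_iff N k f).mp hf

theorem exists_cuspForm_of_mem_SF {N : ℕ} [NeZero N] {k : ℤ} {f : ℍ → ℂ}
    (hf : f ∈ SF (Gamma0 N) k) : ∃ g : CuspForm (Gamma0 N) k, ⇑g = f :=
  (Fermat.Agent.S20.isCF_iff N k f).mp hf

theorem coe_modularForm_mem_MF {N : ℕ} [NeZero N] {k : ℤ} (g : ModularForm (Gamma0 N) k) :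
    (⇑g : ℍ → ℂ) ∈ MF (Gamma0 N) k :=
  (Fermat.Agent.S20.isMF_iff N k _).mpr ⟨g, rfl⟩

theorem coe_cuspForm_mem_SF {N : ℕ} [NeZero N] {k : ℤ} (g : CuspForm (Gamma0 N) k) :
    (⇑g : ℍ → ℂ) ∈ SF (Gamma0 N) k :=
  (Fermat.Agent.S20.isCF_iff N k _).mpr ⟨g, rfl⟩

theorem qCoeff_add_of_mem_MF {N : ℕ} [NeZero N] {k : ℤ} {f g : ℍ → ℂ}
    (hf : f ∈ MF (Gamma0 N) k) (hg : g ∈ MF (Gamma0 N) k) (n : ℕ) :
    qCoeff (f + g) n = qCoeff f n + qCoeff g n := by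
  obtain ⟨F, rfl⟩ := exists_modularForm_of_mem_MF hf
  obtain ⟨G, rfl⟩ := exists_modularForm_of_mem_MF hg
  simp only [qCoeff]
  rw [ModularForm.qExpansion_add one_pos (one_mem_strictPeriods N) F G, map_add]

theorem qCoeff_smul_of_mem_MF {N : ℕ} [NeZero N] {k : ℤ} {f : ℍ → ℂ}
    (hf : f ∈ MF (Gamma0 N) k) (c : ℂ) (n : ℕ) :
    qCoeff (c • f) n = c * qCoeff f n := by
  obtain ⟨F, rfl⟩ := exists_modularForm_of_mem_MF hf
  simp only [qCoeff]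
  rw [ModularForm.qExpansion_smul one_pos (one_mem_strictPeriods N) c F]
  simp

theorem qCoeff_sub_of_mem_MF {N : ℕ} [NeZero N] {k : ℤ} {f g : ℍ → ℂ}
    (hf : f ∈ MF (Gamma0 N) k) (hg : g ∈ MF (Gamma0 N) k) (n : ℕ) :
    qCoeff (f - g) n = qCoeff f n - qCoeff g n := by
  obtain ⟨F, rfl⟩ := exists_modularForm_of_mem_MF hf
  obtain ⟨G, rfl⟩ := exists_modularForm_of_mem_MF hg
  simp only [qCoeff]
  rw [ModularForm.qExpansion_sub one_pos (one_mem_strictPeriods N) F G, map_sub]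

theorem qCoeff_zero_cuspForm {N : ℕ} {k : ℤ} (f : CuspForm (Gamma0 N) k) :
    qCoeff (⇑f) 0 = 0 := by
  simp only [qCoeff]
  exact CuspFormClass.qExpansion_coeff_zero f one_pos (one_mem_strictPeriods N)

theorem qCoeff_zero_of_mem_SF {N : ℕ} [NeZero N] {k : ℤ} {f : ℍ → ℂ}
    (hf : f ∈ SF (Gamma0 N) k) : qCoeff f 0 = 0 := by
  obtain ⟨F, rfl⟩ := exists_cuspForm_of_mem_SF hf
  exact qCoeff_zero_cuspForm F

/-! ## Arithmetic of `n = (p-1)/gcd(p-1,12)` and `c = 12/gcd(p-1,12)` -/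

/-- `ν = gcd (p-1) 12`. -/
theorem gcd_pos (p : ℕ) : 0 < Nat.gcd (p - 1) 12 :=
  Nat.gcd_pos_of_pos_right _ (by norm_num)

theorem gcd_mul_eisensteinNumerator (p : ℕ) :
    Nat.gcd (p - 1) 12 * ModularCurve.eisensteinNumerator p = p - 1 := by
  unfold ModularCurve.eisensteinNumerator
  exact Nat.mul_div_cancel' (Nat.gcd_dvd_left _ _)

theorem gcd_mul_twelve_div (p : ℕ) : Nat.gcd (p - 1) 12 * (12 / Nat.gcd (p - 1) 12) = 12 :=
  Nat.mul_div_cancel' (Nat.gcd_dvd_right _ _)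

/-- `c = 12/ν` and `n = (p-1)/ν` are coprime. -/
theorem coprime_c_n (p : ℕ) :
    Nat.Coprime (12 / Nat.gcd (p - 1) 12) (ModularCurve.eisensteinNumerator p) := by
  unfold ModularCurve.eisensteinNumerator
  have h := Nat.coprime_div_gcd_div_gcd (gcd_pos p)
  exact h.symm

theorem eisensteinNumerator_pos (p : ℕ) (hp : 2 ≤ p) :
    0 < ModularCurve.eisensteinNumerator p := by
  have h := gcd_mul_eisensteinNumerator p
  rcases Nat.eq_zero_or_pos (ModularCurve.eisensteinNumerator p) with h0 | h0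
  · rw [h0, mul_zero] at h
    omega
  · exact h0

/-! ## (UB') -/

/-- (UB'), bundled form: a cusp form congruent to the Eisenstein series modulo `m`
(coefficients of index `≥ 1`) forces `m ∣ (p-1)/gcd(p-1,12)`. -/
theorem ub_prime (p : ℕ) [Fact p.Prime]
    (hE : ∃ e ∈ MF (Gamma0 p) 2, qCoeff e 0 = ((p : ℂ) - 1) / 24 ∧
      ∀ k : ℕ, 1 ≤ k → qCoeff e k = (sigmaP p k : ℂ))
    (hUB : ∀ G ∈ MF (Gamma0 p) 2, IntFrom1 G →
      ∃ m : ℤ, 24 * qCoeff G 0 = (Nat.gcd (p - 1) 12 : ℂ) * (m : ℂ))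
    (m : ℕ) (hm : 1 ≤ m) (f : CuspForm (Gamma0 p) 2)
    (hf : ∀ k : ℕ, 1 ≤ k → ∃ t : ℤ, qCoeff (⇑f) k = (sigmaP p k : ℂ) + (m : ℂ) * (t : ℂ)) :
    m ∣ ModularCurve.eisensteinNumerator p := by
  have : NeZero p := ⟨(Fact.out : p.Prime).ne_zero⟩
  obtain ⟨e, he, he0, hek⟩ := hE
  have hfMF : (⇑f : ℍ → ℂ) ∈ MF (Gamma0 p) 2 :=
    Fermat.Agent.S20.SF_le_MF _ _ (coe_cuspForm_mem_SF f)
  have hsub : e - ⇑f ∈ MF (Gamma0 p) 2 := Submodule.sub_mem _ he hfMF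
  have hmC : (m : ℂ) ≠ 0 := by
    have : m ≠ 0 := by omega
    exact_mod_cast this
  set G : ℍ → ℂ := ((m : ℂ)⁻¹) • (e - ⇑f) with hG
  have hGmem : G ∈ MF (Gamma0 p) 2 := Submodule.smul_mem _ _ hsub
  have hGk : ∀ k : ℕ, qCoeff G k = (m : ℂ)⁻¹ * (qCoeff e k - qCoeff (⇑f) k) := by
    intro k
    rw [hG, qCoeff_smul_of_mem_MF hsub, qCoeff_sub_of_mem_MF he hfMF]
  have hint : IntFrom1 G := by
    intro k hk
    obtain ⟨t, ht⟩ := hf k hk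
    refine ⟨-t, ?_⟩
    rw [hGk, hek k hk, ht]
    push_cast
    field_simp
    ring
  obtain ⟨M, hM⟩ := hUB G hGmem hint
  rw [hGk, he0, qCoeff_zero_cuspForm] at hM
  -- `(p - 1) = ν * M * m` in `ℂ`
  have hp1 : 1 ≤ p := (Fact.out : p.Prime).one_lt.le
  have h1 : ((p : ℂ) - 1) = (Nat.gcd (p - 1) 12 : ℂ) * (M : ℂ) * (m : ℂ) := by
    have h2 : 24 * ((m : ℂ)⁻¹ * (((p : ℂ) - 1) / 24 - 0)) = (m : ℂ)⁻¹ * ((p : ℂ) - 1) := by
      ring
    rw [h2] at hM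
    have h3 : ((p : ℂ) - 1) = (m : ℂ) * ((m : ℂ)⁻¹ * ((p : ℂ) - 1)) := by
      field_simp
    rw [h3, hM]
    ring
  have h4 : ((p - 1 : ℕ) : ℤ) = (Nat.gcd (p - 1) 12 : ℤ) * M * (m : ℤ) := by
    have : (((p - 1 : ℕ) : ℤ) : ℂ) = (((Nat.gcd (p - 1) 12 : ℤ) * M * (m : ℤ) : ℤ) : ℂ) := by
      push_cast [Nat.cast_sub hp1]
      exact h1
    exact_mod_cast this
  have h5 := gcd_mul_eisensteinNumerator p
  have h6 : (Nat.gcd (p - 1) 12 : ℤ) * (ModularCurve.eisensteinNumerator p : ℤ) =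
      (Nat.gcd (p - 1) 12 : ℤ) * (M * (m : ℤ)) := by
    rw [← mul_assoc, ← h4]
    exact_mod_cast h5
  have hν : (Nat.gcd (p - 1) 12 : ℤ) ≠ 0 := by
    have := gcd_pos p
    exact_mod_cast this.ne'
  have h7 : (ModularCurve.eisensteinNumerator p : ℤ) = M * (m : ℤ) := mul_left_cancel₀ hν h6
  have h8 : (m : ℤ) ∣ (ModularCurve.eisensteinNumerator p : ℤ) := ⟨M, by rw [h7]; ring⟩
  exact_mod_cast h8

/-! ## (LB') -/

/-- (LB'), bundled form: there is an element of the integral lattice which is congruent to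
`c` times the Eisenstein series modulo `n` (coefficients of index `≥ 1`), where `c = 12/ν` is prime
to `n = (p-1)/ν`. -/
theorem lb_prime (p : ℕ) [Fact p.Prime]
    (hE : ∃ e ∈ MF (Gamma0 p) 2, qCoeff e 0 = ((p : ℂ) - 1) / 24 ∧
      ∀ k : ℕ, 1 ≤ k → qCoeff e k = (sigmaP p k : ℂ))
    (hC : ∀ G ∈ MF (Gamma0 p) 2, qCoeff G 0 = 0 → G ∈ SF (Gamma0 p) 2)
    (hLB : ∃ G ∈ MF (Gamma0 p) 2, qCoeff G 0 = 1 / 2 ∧ IntFrom1 G) :
    ∃ h : CuspForm (Gamma0 p) 2, h ∈ CuspForm.intLattice p 2 ∧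
      ∀ k : ℕ, 1 ≤ k → ∃ t : ℤ, qCoeff (⇑h) k =
        ((12 / Nat.gcd (p - 1) 12 : ℕ) : ℂ) * (sigmaP p k : ℂ) +
          (ModularCurve.eisensteinNumerator p : ℂ) * (t : ℂ) := by
  have : NeZero p := ⟨(Fact.out : p.Prime).ne_zero⟩
  obtain ⟨e, he, he0, hek⟩ := hE
  obtain ⟨G₁, hG₁, hG₁0, hG₁k⟩ := hLB
  set c : ℕ := 12 / Nat.gcd (p - 1) 12 with hc
  set n : ℕ := ModularCurve.eisensteinNumerator p with hn
  have hce : (c : ℂ) • e ∈ MF (Gamma0 p) 2 := Submodule.smul_mem _ _ he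
  have hnG : (n : ℂ) • G₁ ∈ MF (Gamma0 p) 2 := Submodule.smul_mem _ _ hG₁
  set h₀ : ℍ → ℂ := (c : ℂ) • e - (n : ℂ) • G₁ with hh₀
  have hh₀mem : h₀ ∈ MF (Gamma0 p) 2 := Submodule.sub_mem _ hce hnG
  have hcoeff : ∀ k : ℕ, qCoeff h₀ k = (c : ℂ) * qCoeff e k - (n : ℂ) * qCoeff G₁ k := by
    intro k
    rw [hh₀, qCoeff_sub_of_mem_MF hce hnG, qCoeff_smul_of_mem_MF he, qCoeff_smul_of_mem_MF hG₁]
  have hp1 : 1 ≤ p := (Fact.out : p.Prime).one_lt.le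
  -- the arithmetic identities in `ℂ`
  have hνn : (Nat.gcd (p - 1) 12 : ℂ) * (n : ℂ) = (p : ℂ) - 1 := by
    have := gcd_mul_eisensteinNumerator p
    have h2 : ((Nat.gcd (p - 1) 12 * n : ℕ) : ℂ) = ((p - 1 : ℕ) : ℂ) := by rw [hn, this]
    push_cast [Nat.cast_sub hp1] at h2
    exact h2
  have hνc : (Nat.gcd (p - 1) 12 : ℂ) * (c : ℂ) = 12 := by
    have := gcd_mul_twelve_div p
    have h2 : ((Nat.gcd (p - 1) 12 * c : ℕ) : ℂ) = ((12 : ℕ) : ℂ) := by rw [hc, this]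
    push_cast at h2
    exact h2
  have hν : (Nat.gcd (p - 1) 12 : ℂ) ≠ 0 := by
    have := gcd_pos p
    exact_mod_cast this.ne'
  have h0 : qCoeff h₀ 0 = 0 := by
    rw [hcoeff, he0, hG₁0, ← hνn]
    have : (c : ℂ) = 12 / (Nat.gcd (p - 1) 12 : ℂ) := by
      rw [eq_div_iff hν, mul_comm]
      exact hνc
    rw [this]
    field_simp
    ring
  obtain ⟨H, hH⟩ := exists_cuspForm_of_mem_SF (hC h₀ hh₀mem h0)
  refine ⟨H, ?_, ?_⟩
  · refine Submodule.subset_span ?_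
    intro k
    rcases Nat.eq_zero_or_pos k with rfl | hk
    · exact ⟨0, by rw [hH, h0]; simp⟩
    · obtain ⟨t, ht⟩ := hG₁k k hk
      refine ⟨(c : ℤ) * (sigmaP p k : ℤ) - (n : ℤ) * t, ?_⟩
      rw [hH, hcoeff, hek k hk, ht]
      push_cast
      ring
  · intro k hk
    obtain ⟨t, ht⟩ := hG₁k k hk
    refine ⟨-t, ?_⟩
    rw [hH, hcoeff, hek k hk, ht]
    push_cast
    ring

end Fermat.Agent.S16.H7
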