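import Fermat.Agent.S16.H7.Hecke
import Fermat.Agent.S16.H7.AbsMain

/-!
# S16, WP ALG: the Hecke lattice algebra of the frozen statement is an abstract Hecke setup
-/

set_option autoImplicit false

noncomputable section

namespace Fermat.Agent.S16.H7

open UpperHalfPlane ModularFormClass CuspForm ModularCurve

variable (p : ℕ) [Fact p.Prime]

/-- The Hecke setup of the frozen statement. -/
def setup : HeckeSetup p ↥(intLattice p 2) ↥(heckeLatticeAlgebra p ∅) where
  coeff := coeffZ p
  ρ := (heckeLatticeAlgebra p ∅).val.toRingHom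
  φ := phi p
  ρ_inj := Subtype.val_injective
  φ_surj := phi_surjective p
  coeff_T := fun _ h f n => coeffZ_phi_X_of_not_dvd h f n
  coeff_U := fun _ h f n => coeffZ_phi_X_of_dvd h f n
  ext := eq_zero_of_coeffZ
  sat := exists_smul_eq

theorem setup_I :
    (setup p).I = Ideal.map ((latticeRestrictHom p ∅).toRingHom.comp (heckeEvalForms p 2))
      (eisensteinIdeal p) := rfl

theorem setup_coeff (k : ℕ) (f : ↥(intLattice p 2)) : (setup p).coeff k f = coeffZ p k f := rfl

/-- The frozen cardinality, from (LB') and (UB') in terms of `coeffZ`. -/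
theorem card_of_lattice (n : ℕ) (hn : 0 < n)
    (hLB : ∃ h : ↥(intLattice p 2), ∃ c : ℤ, IsCoprime c (n : ℤ) ∧
      ∀ k : ℕ, 1 ≤ k → (n : ℤ) ∣ coeffZ p k h - c * ((sigmaP p k : ℕ) : ℤ))
    (hUB : ∀ m : ℕ, 1 ≤ m → ∀ f : ↥(intLattice p 2),
      (∀ k : ℕ, 1 ≤ k → (m : ℤ) ∣ coeffZ p k f - ((sigmaP p k : ℕ) : ℤ)) → m ∣ n) :
    Nat.card (↥(heckeLatticeAlgebra p ∅) ⧸
        Ideal.map ((latticeRestrictHom p ∅).toRingHom.comp (heckeEvalForms p 2))
          (eisensteinIdeal p)) = n := by
  haveI := intLattice.moduleFinite p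
  haveI := intLattice.moduleFree p
  exact (setup p).card_quotient (Fact.out : p.Prime) n hn hLB hUB

end Fermat.Agent.S16.H7
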