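import Fermat.Agent.S16.Interface
import Fermat.Agent.S16.H7.Bridge
import Fermat.Agent.S16.H7.Inst

/-!
# S16, WP ALG: `result_of_forms` in the exact shape of the S16 skeleton (helper7)

`result_of_forms` : from the four interface statements `HasEis p`, `CuspCrit p`, `UpperBound p`,
`LowerBound p` (see `Fermat.Agent.S16.Interface`) to the frozen statement of S16.

Proof: (E), (C), (UB), (LB) give (UB') and (LB') for the integral lattice (`H7/Bridge.lean`);
the Hecke algebra argument (`H7/Abs.lean`, `H7/AbsMain.lean`: operators `t_k` with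
`a₁(t_k f) = a_k(f)`, perfectness of the pairing `T × L → ℤ`, `ℤ ↠ T/I`) turns these into
`|T/I| = n` (`H7/Inst.lean`).
-/

set_option autoImplicit false

noncomputable section

namespace Fermat.Agent.S16.H7

open UpperHalfPlane ModularForm CongruenceSubgroup MatrixGroups ModularFormClass
open Fermat.Agent.S20 (MF SF)

/-- WP ALG (main), with the interface hypotheses written out. -/
theorem result_of_forms' (p : ℕ) [Fact p.Prime]
    (hE : ∃ e ∈ MF (Gamma0 p) 2, qCoeff e 0 = ((p : ℂ) - 1) / 24 ∧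
      ∀ k : ℕ, 1 ≤ k → qCoeff e k = (sigmaP p k : ℂ))
    (hC : ∀ G ∈ MF (Gamma0 p) 2, qCoeff G 0 = 0 → G ∈ SF (Gamma0 p) 2)
    (hUB : ∀ G ∈ MF (Gamma0 p) 2, IntFrom1 G →
      ∃ m : ℤ, 24 * qCoeff G 0 = (Nat.gcd (p - 1) 12 : ℂ) * (m : ℂ))
    (hLB : ∃ G ∈ MF (Gamma0 p) 2, qCoeff G 0 = 1 / 2 ∧ IntFrom1 G) :
    Nat.card (↥(CuspForm.heckeLatticeAlgebra p ∅) ⧸
        Ideal.map ((CuspForm.latticeRestrictHom p ∅).toRingHom.comp (CuspForm.heckeEvalForms p 2))
          (ModularCurve.eisensteinIdeal p)) =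
      ModularCurve.eisensteinNumerator p := by
  have hp : p.Prime := Fact.out
  refine card_of_lattice p _ (eisensteinNumerator_pos p hp.two_le) ?_ ?_
  · obtain ⟨h, hmem, hh⟩ := lb_prime p hE hC hLB
    refine ⟨⟨h, hmem⟩, ((12 / Nat.gcd (p - 1) 12 : ℕ) : ℤ),
      Nat.isCoprime_iff_coprime.mpr (coprime_c_n p), fun k hk => ?_⟩
    obtain ⟨t, ht⟩ := hh k hk
    refine ⟨t, ?_⟩
    have h1 : coeffZ p k ⟨h, hmem⟩ =
        ((12 / Nat.gcd (p - 1) 12 : ℕ) : ℤ) * ((sigmaP p k : ℕ) : ℤ) +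
          (ModularCurve.eisensteinNumerator p : ℤ) * t := by
      rw [coeffZ_eq_iff]
      push_cast
      exact ht
    rw [h1]
    ring
  · intro m hm f hf
    refine ub_prime p hE hUB m hm f.1 fun k hk => ?_
    obtain ⟨t, ht⟩ := hf k hk
    refine ⟨t, ?_⟩
    rw [coeffZ_spec]
    have h1 : coeffZ p k f = ((sigmaP p k : ℕ) : ℤ) + (m : ℤ) * t := by linarith
    rw [h1]
    push_cast
    ring

/-- **WP ALG (main)**, in the exact shape of `Skel.result_of_forms` of the S16 skeleton. -/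
theorem result_of_forms (p : ℕ) [Fact p.Prime] (_hp5 : 5 ≤ p)
    (hE : HasEis p) (hC : CuspCrit p) (hUB : UpperBound p) (hLB : LowerBound p) :
    Nat.card (↥(CuspForm.heckeLatticeAlgebra p ∅) ⧸
        Ideal.map ((CuspForm.latticeRestrictHom p ∅).toRingHom.comp (CuspForm.heckeEvalForms p 2))
          (ModularCurve.eisensteinIdeal p)) =
      ModularCurve.eisensteinNumerator p :=
  result_of_forms' p hE hC hUB hLB

end Fermat.Agent.S16.H7
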