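import Fermat.Agent.S16.H7.Lattice

/-!
# S16, WP ALG: the Hecke lattice algebra `T` acting on the integral lattice

* `phi N : HeckeAlg →+* T` : the ring homomorphism of the frozen statement; it is surjective.
* `act t f` : the action of `t ∈ T` on `f` in the lattice.
* `coeffZ_phi_X_of_not_dvd`, `coeffZ_phi_X_of_dvd` : action of the generators on coefficients.
-/

set_option autoImplicit false

noncomputable section

namespace Fermat.Agent.S16.H7

open UpperHalfPlane ModularFormClass CuspForm ModularCurve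

local notation "Γ₀(" N ")" => CongruenceSubgroup.Gamma0 N

variable (N : ℕ) [NeZero N]

/-- The ring homomorphism `ℤ[X_ℓ] → T` of the frozen statement. -/
def phi : HeckeAlg →+* ↥(heckeLatticeAlgebra N ∅) :=
  (latticeRestrictHom N ∅).toRingHom.comp (heckeEvalForms N 2)

theorem heckeEvalForms_surjective : Function.Surjective (heckeEvalForms N 2) := by
  intro x
  have hle : heckeAlgebra N 2 ∅ ≤
      ((heckeAlgebra N 2 ∅).val.comp (MvPolynomial.aeval (R := ℤ) (heckeFormsGen N 2))).range := by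
    refine Algebra.adjoin_le ?_
    rintro T (⟨ℓ, hℓ, hℓN, -, rfl⟩ | ⟨q, hqN, hq, -, rfl⟩)
    · refine ⟨MvPolynomial.X (⟨ℓ, hℓ⟩ : Nat.Primes), ?_⟩
      have h1 : MvPolynomial.aeval (R := ℤ) (heckeFormsGen N 2) (MvPolynomial.X (⟨ℓ, hℓ⟩ : Nat.Primes)) =
          heckeFormsGen N 2 (⟨ℓ, hℓ⟩ : Nat.Primes) := MvPolynomial.aeval_X _ _
      show ((MvPolynomial.aeval (R := ℤ) (heckeFormsGen N 2) (MvPolynomial.X (⟨ℓ, hℓ⟩ : Nat.Primes)) :
        ↥(heckeAlgebra N 2 ∅)) : Module.End ℂ (CuspForm Γ₀(N) 2)) = _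
      rw [h1, heckeFormsGen_of_not_dvd (N := N) (k := 2) (ℓ := (⟨ℓ, hℓ⟩ : Nat.Primes)) hℓN]
      rfl
    · refine ⟨MvPolynomial.X (⟨q, hq⟩ : Nat.Primes), ?_⟩
      have h1 : MvPolynomial.aeval (R := ℤ) (heckeFormsGen N 2) (MvPolynomial.X (⟨q, hq⟩ : Nat.Primes)) =
          heckeFormsGen N 2 (⟨q, hq⟩ : Nat.Primes) := MvPolynomial.aeval_X _ _
      show ((MvPolynomial.aeval (R := ℤ) (heckeFormsGen N 2) (MvPolynomial.X (⟨q, hq⟩ : Nat.Primes)) :
        ↥(heckeAlgebra N 2 ∅)) : Module.End ℂ (CuspForm Γ₀(N) 2)) = _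
      rw [h1, heckeFormsGen_of_dvd (N := N) (k := 2) (q := (⟨q, hq⟩ : Nat.Primes)) hqN]
      rfl
  obtain ⟨Q, hQ⟩ := hle x.2
  exact ⟨Q, Subtype.ext hQ⟩

theorem phi_surjective : Function.Surjective (phi N) :=
  (latticeRestrictHom_surjective N ∅).comp (heckeEvalForms_surjective N)

variable {N}

/-- The action of the Hecke lattice algebra on the integral lattice. -/
def act (t : ↥(heckeLatticeAlgebra N ∅)) (f : ↥(intLattice N 2)) : ↥(intLattice N 2) :=
  (t : Module.End ℤ ↥(intLattice N 2)) f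

theorem act_add (t : ↥(heckeLatticeAlgebra N ∅)) (f g : ↥(intLattice N 2)) :
    act t (f + g) = act t f + act t g := map_add _ f g

theorem act_zsmul (t : ↥(heckeLatticeAlgebra N ∅)) (c : ℤ) (f : ↥(intLattice N 2)) :
    act t (c • f) = c • act t f := map_smul _ c f

theorem act_sub (t : ↥(heckeLatticeAlgebra N ∅)) (f g : ↥(intLattice N 2)) :
    act t (f - g) = act t f - act t g := map_sub _ f g

theorem act_zero (t : ↥(heckeLatticeAlgebra N ∅)) : act t (0 : ↥(intLattice N 2)) = 0 :=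
  map_zero _

theorem add_act (s t : ↥(heckeLatticeAlgebra N ∅)) (f : ↥(intLattice N 2)) :
    act (s + t) f = act s f + act t f := rfl

theorem sub_act (s t : ↥(heckeLatticeAlgebra N ∅)) (f : ↥(intLattice N 2)) :
    act (s - t) f = act s f - act t f := rfl

theorem zero_act (f : ↥(intLattice N 2)) : act (0 : ↥(heckeLatticeAlgebra N ∅)) f = 0 := rfl

theorem one_act (f : ↥(intLattice N 2)) : act (1 : ↥(heckeLatticeAlgebra N ∅)) f = f := rfl

theorem mul_act (s t : ↥(heckeLatticeAlgebra N ∅)) (f : ↥(intLattice N 2)) :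
    act (s * t) f = act s (act t f) := rfl

theorem zsmul_act (c : ℤ) (t : ↥(heckeLatticeAlgebra N ∅)) (f : ↥(intLattice N 2)) :
    act (c • t) f = c • act t f := rfl

theorem intCast_act (c : ℤ) (f : ↥(intLattice N 2)) :
    act ((c : ℤ) : ↥(heckeLatticeAlgebra N ∅)) f = c • f := by
  have h : ((c : ℤ) : ↥(heckeLatticeAlgebra N ∅)) = c • (1 : ↥(heckeLatticeAlgebra N ∅)) := by
    simp
  rw [h, zsmul_act, one_act]

theorem act_ext {s t : ↥(heckeLatticeAlgebra N ∅)} (h : ∀ f, act s f = act t f) : s = t :=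
  Subtype.ext (LinearMap.ext h)

/-- The underlying cusp form of `φ(Q) f`. -/
theorem coe_act_latticeRestrictHom (x : ↥(heckeAlgebra N 2 ∅)) (f : ↥(intLattice N 2)) :
    ((act (latticeRestrictHom N ∅ x) f : ↥(intLattice N 2)) : CuspForm Γ₀(N) 2) =
      (x : Module.End ℂ (CuspForm Γ₀(N) 2)) (f : CuspForm Γ₀(N) 2) := rfl

theorem coe_act_phi_X_of_not_dvd {ℓ : Nat.Primes} (h : ¬ (ℓ : ℕ) ∣ N) (f : ↥(intLattice N 2)) :
    ((act (phi N (MvPolynomial.X ℓ)) f : ↥(intLattice N 2)) : CuspForm Γ₀(N) 2) =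
      heckeTLin 2 ℓ.2 h (f : CuspForm Γ₀(N) 2) := by
  have h1 : phi N (MvPolynomial.X ℓ) = latticeRestrictHom N ∅ (heckeFormsGen N 2 ℓ) := by
    show latticeRestrictHom N ∅ (heckeEvalForms N 2 (heckeGen ℓ)) = _
    rw [heckeEvalForms_heckeGen]
  rw [h1, coe_act_latticeRestrictHom, heckeFormsGen_of_not_dvd h]
  rfl

theorem coe_act_phi_X_of_dvd {q : Nat.Primes} (h : (q : ℕ) ∣ N) (f : ↥(intLattice N 2)) :
    ((act (phi N (MvPolynomial.X q)) f : ↥(intLattice N 2)) : CuspForm Γ₀(N) 2) =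
      heckeULin 2 h (f : CuspForm Γ₀(N) 2) := by
  have h1 : phi N (MvPolynomial.X q) = latticeRestrictHom N ∅ (heckeFormsGen N 2 q) := by
    show latticeRestrictHom N ∅ (heckeEvalForms N 2 (heckeGen q)) = _
    rw [heckeEvalForms_heckeGen]
  rw [h1, coe_act_latticeRestrictHom, heckeFormsGen_of_dvd h]
  rfl

/-- Coefficients of `T_ℓ f`, `ℓ ∤ N`. -/
theorem coeffZ_phi_X_of_not_dvd {ℓ : Nat.Primes} (h : ¬ (ℓ : ℕ) ∣ N) (f : ↥(intLattice N 2))
    (n : ℕ) :
    coeffZ N n (act (phi N (MvPolynomial.X ℓ)) f) =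
      coeffZ N (n * ℓ) f + if (ℓ : ℕ) ∣ n then (ℓ : ℤ) * coeffZ N (n / ℓ) f else 0 := by
  rw [coeffZ_eq_iff, coe_act_phi_X_of_not_dvd h, CuspForm.coe_heckeTLin_apply,
    ModularFormClass.qCoeff_heckeT (f : CuspForm Γ₀(N) 2) (one_mem_sp N) ℓ.2.ne_zero n,
    ModularForm.coeffHeckeT_apply, coeffZ_spec]
  split_ifs with hd
  · rw [coeffZ_spec]
    push_cast
    norm_num
  · push_cast
    ring

/-- Coefficients of `U_q f`, `q ∣ N`. -/
theorem coeffZ_phi_X_of_dvd {q : Nat.Primes} (h : (q : ℕ) ∣ N) (f : ↥(intLattice N 2))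
    (n : ℕ) :
    coeffZ N n (act (phi N (MvPolynomial.X q)) f) = coeffZ N (n * q) f := by
  rw [coeffZ_eq_iff, coe_act_phi_X_of_dvd h, CuspForm.coe_heckeULin_apply,
    ModularFormClass.qCoeff_heckeU (f : CuspForm Γ₀(N) 2) (one_mem_sp N) q.2.ne_zero n,
    ModularForm.coeffHeckeU_apply, coeffZ_spec]

end Fermat.Agent.S16.H7
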