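import Fermat.Statements.S16
import Fermat.Prelude.Thm_ModularFormClass_qCoeff_heckeT
import Fermat.Prelude.Thm_ModularFormClass_qCoeff_heckeU
import Fermat.Prelude.Thm_CongruenceSubgroup_one_mem_strictPeriods_Gamma0

/-!
# S16, WP ALG: integral `q`-coefficients on the lattice `intLattice N 2` and the Hecke action

* `coeffZ N n : ↥(intLattice N 2) →ₗ[ℤ] ℤ` : the `n`-th `q`-coefficient as an integer.
* `ext_coeffZ`        : an element of the lattice is determined by its coefficients of index `≥ 1`.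
* `exists_smul_eq`    : saturation, `d ∣ a_n(g)` for all `n ≥ 1` implies `g ∈ d • L`.
* `coeffZ_T`, `coeffZ_U` : the action of the generators of the Hecke lattice algebra on coefficients.
-/

set_option autoImplicit false

noncomputable section

namespace Fermat.Agent.S16.H7

open UpperHalfPlane ModularFormClass CuspForm

local notation "Γ₀(" N ")" => CongruenceSubgroup.Gamma0 N

/-- `1` is a strict period of `Γ₀(N)`. -/
theorem one_mem_sp (N : ℕ) :
    (1 : ℝ) ∈ ((Γ₀(N) : Subgroup (Matrix.SpecialLinearGroup (Fin 2) ℤ)) :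
      Subgroup (Matrix.GeneralLinearGroup (Fin 2) ℝ)).strictPeriods :=
  CongruenceSubgroup.one_mem_strictPeriods_Gamma0 N

section Basic

variable {N : ℕ} {k : ℤ}

theorem qc_add (f g : CuspForm Γ₀(N) k) (n : ℕ) :
    qCoeff ⇑(f + g) n = qCoeff ⇑f n + qCoeff ⇑g n := by
  simp only [qCoeff, FunLike.coe_add]
  rw [ModularForm.qExpansion_add one_pos (one_mem_sp N) f g, map_add]

theorem qc_zero (n : ℕ) : qCoeff ⇑(0 : CuspForm Γ₀(N) k) n = 0 := by
  simp only [qCoeff, FunLike.coe_zero]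
  rw [UpperHalfPlane.qExpansion_zero, map_zero]

theorem qc_smul (c : ℂ) (f : CuspForm Γ₀(N) k) (n : ℕ) :
    qCoeff ⇑(c • f) n = c * qCoeff ⇑f n := by
  have h1 : ⇑(c • f) = c • ⇑f := by
    ext z
    simp
  simp only [qCoeff, h1]
  rw [ModularForm.qExpansion_smul one_pos (one_mem_sp N) c f]
  simp

theorem qc_zsmul (c : ℤ) (f : CuspForm Γ₀(N) k) (n : ℕ) :
    qCoeff ⇑(c • f) n = c * qCoeff ⇑f n := by
  have h1 : c • f = (c : ℂ) • f := by
    ext z
    simp
  rw [h1, qc_smul]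

theorem qc_cusp_zero (f : CuspForm Γ₀(N) k) : qCoeff ⇑f 0 = 0 := by
  simp only [qCoeff]
  exact CuspFormClass.qExpansion_coeff_zero f one_pos (one_mem_sp N)

/-- `q`-expansion principle for cusp forms on `Γ₀(N)`. -/
theorem eq_zero_of_qc (f : CuspForm Γ₀(N) k) (h : ∀ n : ℕ, 1 ≤ n → qCoeff ⇑f n = 0) : f = 0 := by
  have h0 : ∀ n : ℕ, qCoeff ⇑f n = 0 := by
    intro n
    rcases Nat.eq_zero_or_pos n with rfl | hn
    · exact qc_cusp_zero f
    · exact h n hn
  haveI : Fact (IsCusp OnePoint.infty ((Γ₀(N) : Subgroup (Matrix.SpecialLinearGroup (Fin 2) ℤ)) :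
      Subgroup (Matrix.GeneralLinearGroup (Fin 2) ℝ))) :=
    ⟨Subgroup.isCusp_of_mem_strictPeriods one_pos (one_mem_sp N)⟩
  have hq : qExpansion 1 (⇑f) = 0 := by
    ext n
    simpa [qCoeff] using h0 n
  have hf : (⇑f : ℍ → ℂ) = 0 :=
    (UpperHalfPlane.qExpansion_eq_zero_iff one_pos
      (SlashInvariantFormClass.periodic_comp_ofComplex f (one_mem_sp N))
      (ModularFormClass.holo f) (ModularFormClass.bdd_at_infty f)).mp hq
  exact DFunLike.coe_injective (hf.trans CuspForm.coe_zero.symm)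

/-- Membership in the integral lattice. -/
theorem mem_intLattice_iff' (f : CuspForm Γ₀(N) k) :
    f ∈ CuspForm.intLattice N k ↔ ∀ n : ℕ, ∃ m : ℤ, qCoeff ⇑f n = (m : ℂ) := by
  constructor
  · intro hf
    refine Submodule.span_induction (p := fun (g : CuspForm Γ₀(N) k) _ => ∀ n : ℕ, ∃ m : ℤ, qCoeff ⇑g n = (m : ℂ))
      (fun g hg => hg) (fun n => ⟨0, by rw [qc_zero]; simp⟩) ?_ ?_ hf
    · intro x y _ _ hx hy n
      obtain ⟨a, ha⟩ := hx n
      obtain ⟨b, hb⟩ := hy n
      exact ⟨a + b, by rw [qc_add, ha, hb]; push_cast; ring⟩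
    · intro c x _ hx n
      obtain ⟨a, ha⟩ := hx n
      exact ⟨c * a, by rw [qc_zsmul, ha]; push_cast; ring⟩
  · intro h
    exact Submodule.subset_span h

end Basic

section Coeff

variable (N : ℕ)

/-- The `n`-th `q`-coefficient of an element of the integral lattice, as an integer. -/
def coeffZfun (f : ↥(CuspForm.intLattice N 2)) (n : ℕ) : ℤ :=
  Classical.choose ((mem_intLattice_iff' f.1).mp f.2 n)

theorem coeffZfun_spec (f : ↥(CuspForm.intLattice N 2)) (n : ℕ) :
    qCoeff ⇑(f : CuspForm Γ₀(N) 2) n = (coeffZfun N f n : ℂ) :=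
  Classical.choose_spec ((mem_intLattice_iff' f.1).mp f.2 n)

/-- The `n`-th `q`-coefficient as a `ℤ`-linear form on the integral lattice. -/
def coeffZ (n : ℕ) : ↥(CuspForm.intLattice N 2) →ₗ[ℤ] ℤ where
  toFun f := coeffZfun N f n
  map_add' f g := by
    have h : ((coeffZfun N (f + g) n : ℤ) : ℂ) = ((coeffZfun N f n + coeffZfun N g n : ℤ) : ℂ) := by
      rw [← coeffZfun_spec]
      push_cast
      rw [← coeffZfun_spec, ← coeffZfun_spec]
      exact qc_add _ _ n
    exact_mod_cast h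
  map_smul' c f := by
    have h : ((coeffZfun N (c • f) n : ℤ) : ℂ) = ((c * coeffZfun N f n : ℤ) : ℂ) := by
      rw [← coeffZfun_spec]
      push_cast
      rw [← coeffZfun_spec]
      exact qc_zsmul c _ n
    simpa using (by exact_mod_cast h : coeffZfun N (c • f) n = c * coeffZfun N f n)

variable {N}

theorem coeffZ_spec (f : ↥(CuspForm.intLattice N 2)) (n : ℕ) :
    qCoeff ⇑(f : CuspForm Γ₀(N) 2) n = (coeffZ N n f : ℂ) :=
  coeffZfun_spec N f n

theorem coeffZ_eq_iff (f : ↥(CuspForm.intLattice N 2)) (n : ℕ) (m : ℤ) :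
    coeffZ N n f = m ↔ qCoeff ⇑(f : CuspForm Γ₀(N) 2) n = (m : ℂ) := by
  rw [coeffZ_spec]
  exact ⟨fun h => by rw [h], fun h => by exact_mod_cast h⟩

theorem coeffZ_zero_index (f : ↥(CuspForm.intLattice N 2)) : coeffZ N 0 f = 0 := by
  rw [coeffZ_eq_iff, qc_cusp_zero]
  simp

/-- An element of the lattice with vanishing coefficients of index `≥ 1` is zero. -/
theorem eq_zero_of_coeffZ (f : ↥(CuspForm.intLattice N 2))
    (h : ∀ n : ℕ, 1 ≤ n → coeffZ N n f = 0) : f = 0 := by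
  apply Subtype.ext
  refine eq_zero_of_qc f.1 fun n hn => ?_
  rw [coeffZ_spec, h n hn]
  simp

/-- Saturation of the integral lattice. -/
theorem exists_smul_eq (d : ℤ) (hd : d ≠ 0) (g : ↥(CuspForm.intLattice N 2))
    (h : ∀ n : ℕ, 1 ≤ n → d ∣ coeffZ N n g) :
    ∃ g' : ↥(CuspForm.intLattice N 2), d • g' = g := by
  have hdC : (d : ℂ) ≠ 0 := by exact_mod_cast hd
  have hmem : ((d : ℂ)⁻¹ • (g : CuspForm Γ₀(N) 2)) ∈ CuspForm.intLattice N 2 := by
    rw [mem_intLattice_iff']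
    intro n
    rcases Nat.eq_zero_or_pos n with rfl | hn
    · exact ⟨0, by rw [qc_cusp_zero]; simp⟩
    · obtain ⟨b, hb⟩ := h n hn
      refine ⟨b, ?_⟩
      rw [qc_smul, coeffZ_spec, hb]
      push_cast
      field_simp
  refine ⟨⟨_, hmem⟩, Subtype.ext ?_⟩
  show d • ((d : ℂ)⁻¹ • (g : CuspForm Γ₀(N) 2)) = g
  have h1 : d • ((d : ℂ)⁻¹ • (g : CuspForm Γ₀(N) 2)) =
      (d : ℂ) • ((d : ℂ)⁻¹ • (g : CuspForm Γ₀(N) 2)) := by
    ext z
    simp
  rw [h1, smul_smul, mul_inv_cancel₀ hdC, one_smul]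

end Coeff

end Fermat.Agent.S16.H7
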